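import Mathlib.Analysis.Complex.Polynomial.Basic
import Mathlib.NumberTheory.JacobiSum.Basic
import Mathlib.NumberTheory.MulChar.Duality
import Mathlib.RingTheory.RootsOfUnity.AlgebraicallyClosed

/-!
# Points of the Fermat curve and Jacobi sums

Over a finite field the number of roots of `x ^ n = a`, `a ≠ 0`, is the sum at `a` of the complex
characters killed by `n`. So the solutions of `x ^ n + y ^ n = 1` are counted by the Jacobi sums of
these characters, those with all three characters nontrivial having absolute value `√q`.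
-/

set_option autoImplicit false
set_option linter.style.haveILetI false
set_option linter.unusedSectionVars false

noncomputable section

open Finset

namespace FA.FermatCount

variable (F : Type*) [Field F] [Fintype F] [DecidableEq F]

/-- The complex characters killed by `n`. -/
def killed (n : ℕ) : Finset (MulChar F ℂ) :=
  (Set.toFinite {χ : MulChar F ℂ | χ ^ n = 1}).toFinset

variable {F} {n : ℕ}

theorem mem_killed {χ : MulChar F ℂ} : χ ∈ killed F n ↔ χ ^ n = 1 := by
  rw [killed, Set.Finite.mem_toFinset, Set.mem_ofPred_eq]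

theorem one_mem_killed : (1 : MulChar F ℂ) ∈ killed F n := mem_killed.mpr (one_pow n)

/-- The dual of the `n`th powers. -/
theorem killed_eq_dual [HasEnoughRootsOfUnity ℂ (Monoid.exponent Fˣ)] (χ : MulChar F ℂ) :
    χ ∈ killed F n ↔
      χ ∈ (MulChar.subgroupOrderIsoSubgroupMulChar F ℂ
        (powMonoidHom n : Fˣ →* Fˣ).range).ofDual := by
  rw [mem_killed, MulChar.mem_subgroupOrderIsoSubgroupMulChar_iff, MulChar.ext_iff]
  constructor
  · rintro h _ ⟨u, rfl⟩
    rw [powMonoidHom_apply, Units.val_pow_eq_pow_val, map_pow, ← MulChar.pow_apply_coe]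
    exact (h u).trans (MulChar.one_apply_coe u)
  · intro h u
    rw [MulChar.pow_apply_coe, ← map_pow, ← Units.val_pow_eq_pow_val, MulChar.one_apply_coe]
    exact h (u ^ n) ⟨u, rfl⟩

local instance : NeZero (Monoid.exponent Fˣ) := ⟨Monoid.exponent_ne_zero_of_finite⟩

/-- There are `gcd (n, q - 1)` such characters. -/
theorem card_killed : #(killed F n) = Nat.gcd n (Fintype.card F - 1) := by
  classical
  have h := MulChar.card_subgroupOrderIsoSubgroupMulChar (M := F) (R := ℂ)
    (H := (powMonoidHom n : Fˣ →* Fˣ).range)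
  rw [← Subgroup.index_eq_card, IsCyclic.index_powMonoidHom_range,
    Nat.card_eq_fintype_card (α := Fˣ), Fintype.card_units, Nat.gcd_comm] at h
  rw [← h, ← Nat.card_eq_finsetCard]
  exact Nat.card_congr (Equiv.subtypeEquivRight killed_eq_dual)

/-- The roots of `x ^ n = a`. -/
def roots (F : Type*) [Field F] [Fintype F] [DecidableEq F] (n : ℕ) (a : F) : Finset F :=
  {x | x ^ n = a}

theorem mem_roots {a x : F} : x ∈ roots F n a ↔ x ^ n = a := by simp [roots]

theorem card_roots_one (hn : 0 < n) : #(roots F n 1) = Nat.gcd n (Fintype.card F - 1) := by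
  classical
  have h := IsCyclic.card_powMonoidHom_ker Fˣ n
  rw [Nat.card_eq_fintype_card (α := Fˣ), Fintype.card_units, Nat.gcd_comm] at h
  rw [← h, ← Nat.card_eq_finsetCard]
  refine Nat.card_congr
    { toFun := fun x => ⟨Units.mk0 x.1 fun h0 => by
        have := mem_roots.mp x.2
        rw [h0, zero_pow hn.ne'] at this
        exact zero_ne_one this, ?_⟩
      invFun := fun u => ⟨(u.1 : F), mem_roots.mpr ?_⟩
      left_inv := fun _ => Subtype.ext rfl
      right_inv := fun _ => Subtype.ext (Units.ext rfl) }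
  · rw [MonoidHom.mem_ker, powMonoidHom_apply]
    exact Units.ext (by rw [Units.val_pow_eq_pow_val]; exact mem_roots.mp x.2)
  · rw [← Units.val_pow_eq_pow_val, ← powMonoidHom_apply, MonoidHom.mem_ker.mp u.2, Units.val_one]

/-- **The roots of `x ^ n = a` as a character sum.** -/
theorem card_roots_eq_sum (hn : 0 < n) {a : F} (ha : a ≠ 0) :
    (#(roots F n a) : ℂ) = ∑ χ ∈ killed F n, χ a := by
  classical
  by_cases h : ∃ x, x ^ n = a
  · obtain ⟨x, hx⟩ := h
    have hx0 : x ≠ 0 := fun e => ha (by rw [← hx, e, zero_pow hn.ne'])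
    have hcard : #(roots F n a) = #(roots F n 1) := by
      refine (Finset.card_bij (fun y _ => x * y) (fun y hy => ?_)
        (fun y _ z _ e => mul_left_cancel₀ hx0 e) (fun z hz => ⟨x⁻¹ * z, ?_, ?_⟩)).symm
      · rw [mem_roots, mul_pow, hx, mem_roots.mp hy, mul_one]
      · rw [mem_roots, mul_pow, inv_pow, hx, mem_roots.mp hz, inv_mul_cancel₀ ha]
      · rw [mul_inv_cancel_left₀ hx0]
    rw [hcard, card_roots_one hn, ← card_killed, Finset.cast_card]
    refine Finset.sum_congr rfl fun χ hχ => ?_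
    rw [← hx, map_pow, ← MulChar.pow_apply' _ hn.ne', mem_killed.mp hχ]
    exact (MulChar.one_apply (isUnit_iff_ne_zero.mpr hx0)).symm
  · push Not at h
    rw [Finset.card_eq_zero.mpr
      (Finset.eq_empty_of_forall_notMem fun x hx => h x (mem_roots.mp hx)), Nat.cast_zero]
    obtain ⟨χ, hχ, hχa⟩ : ∃ χ ∈ killed F n, χ a ≠ 1 := by
      by_contra hall
      push Not at hall
      have : Units.mk0 a ha ∈ (MulChar.subgroupOrderIsoSubgroupMulChar F ℂ).symm
          (OrderDual.toDual (MulChar.subgroupOrderIsoSubgroupMulChar F ℂ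
            (powMonoidHom n : Fˣ →* Fˣ).range).ofDual) :=
        MulChar.mem_subgroupOrderIsoSubgroupMulChar_symm_iff.mpr fun χ hχ =>
          hall χ ((killed_eq_dual χ).mpr hχ)
      rw [OrderDual.toDual_ofDual, OrderIso.symm_apply_apply] at this
      obtain ⟨u, hu⟩ := this
      exact h u (by rw [← Units.val_pow_eq_pow_val, ← powMonoidHom_apply, hu, Units.val_mk0])
    symm
    refine eq_zero_of_mul_eq_self_left hχa ?_
    rw [Finset.mul_sum]
    refine Finset.sum_bij (fun ψ _ => χ * ψ) (fun ψ hψ => ?_)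
      (fun ψ _ ψ' _ e => mul_left_cancel e) (fun ψ hψ => ⟨χ⁻¹ * ψ, ?_, mul_inv_cancel_left χ ψ⟩)
      (fun ψ _ => (MulChar.mul_apply χ ψ a).symm)
    · rw [mem_killed, mul_pow, mem_killed.mp hχ, mem_killed.mp hψ, one_mul]
    · rw [mem_killed, mul_pow, inv_pow, mem_killed.mp hχ, mem_killed.mp hψ, inv_one, one_mul]

/-- A Jacobi sum of nontrivial characters with nontrivial product has absolute value `√q`. -/
theorem norm_jacobiSum {χ ψ : MulChar F ℂ} (hχ : χ ≠ 1) (hψ : ψ ≠ 1) (h : χ * ψ ≠ 1) :
    ‖jacobiSum χ ψ‖ = Real.sqrt (Fintype.card F) := by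
  have hchar : ringChar ℂ ≠ ringChar F := by
    rw [ringChar.eq_zero]
    exact (CharP.ringChar_ne_zero_of_finite F).symm
  have h1 := jacobiSum_mul_jacobiSum_inv hchar hχ hψ h
  have h2 : jacobiSum χ⁻¹ ψ⁻¹ = (starRingEnd ℂ) (jacobiSum χ ψ) := by
    simp only [jacobiSum, map_sum, map_mul, starRingEnd_apply, MulChar.star_apply']
  rw [h2, Complex.mul_conj'] at h1
  have h3 : ‖jacobiSum χ ψ‖ ^ 2 = (Fintype.card F : ℝ) := by exact_mod_cast h1
  rw [← h3, Real.sqrt_sq (norm_nonneg _)]

/-- The affine points of `x ^ n + y ^ n = 1`. -/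
def affinePoints (F : Type*) [Field F] [Fintype F] [DecidableEq F] (n : ℕ) : Finset (F × F) :=
  {P | P.1 ^ n + P.2 ^ n = 1}

theorem card_affinePoints (hn : 0 < n) :
    (#(affinePoints F n) : ℂ) =
      (∑ χ ∈ killed F n, ∑ ψ ∈ killed F n, jacobiSum χ ψ) + 2 * #(killed F n) := by
  classical
  have hfib : ∀ a, (affinePoints F n).filter (fun P => P.1 ^ n = a) =
      roots F n a ×ˢ roots F n (1 - a) := fun a => by
    ext ⟨x, y⟩
    simp only [affinePoints, Finset.mem_filter, Finset.mem_univ, true_and, Finset.mem_product,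
      mem_roots]
    constructor
    · rintro ⟨h, rfl⟩
      exact ⟨rfl, eq_sub_of_add_eq' h⟩
    · rintro ⟨rfl, h⟩
      exact ⟨by rw [h, add_sub_cancel], rfl⟩
  rw [Finset.card_eq_sum_card_fiberwise (f := fun P : F × F => P.1 ^ n) (t := Finset.univ)
    (fun _ _ => Finset.mem_univ _)]
  simp only [hfib, Finset.card_product, Nat.cast_sum, Nat.cast_mul]
  rw [← Finset.sum_sdiff (Finset.subset_univ {(0 : F), 1}), Finset.sum_pair zero_ne_one, sub_zero,
    sub_self]
  have h0 : #(roots F n 0) = 1 := by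
    rw [Finset.card_eq_one]
    exact ⟨0, Finset.ext fun x => by
      rw [mem_roots, Finset.mem_singleton, pow_eq_zero_iff hn.ne']⟩
  rw [h0, card_roots_one hn, ← card_killed, Nat.cast_one, one_mul, mul_one, ← two_mul]
  congr 1
  calc ∑ a ∈ univ \ {0, 1}, (#(roots F n a) : ℂ) * #(roots F n (1 - a))
      = ∑ a ∈ univ \ {0, 1}, ∑ χ ∈ killed F n, ∑ ψ ∈ killed F n, χ a * ψ (1 - a) := by
        refine Finset.sum_congr rfl fun a ha => ?_
        simp only [Finset.mem_sdiff, Finset.mem_univ, true_and, Finset.mem_insert,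
          Finset.mem_singleton, not_or] at ha
        rw [card_roots_eq_sum hn ha.1, card_roots_eq_sum hn (sub_ne_zero.mpr (Ne.symm ha.2)),
          Finset.sum_mul_sum]
    _ = _ := by
        rw [Finset.sum_comm]
        refine Finset.sum_congr rfl fun χ _ => ?_
        rw [Finset.sum_comm]
        exact Finset.sum_congr rfl fun ψ _ => (jacobiSum_eq_sum_sdiff χ ψ).symm

open scoped Classical in
/-- **The number of points of the Fermat curve**, at infinity included. -/
theorem card_points (hn : 0 < n) :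
    (#(affinePoints F n) : ℂ) + #(roots F n (-1)) =
      (Fintype.card F : ℂ) + 1 + ∑ χ ∈ (killed F n).erase 1,
        ∑ ψ ∈ ((killed F n).erase 1).erase χ⁻¹, jacobiSum χ ψ := by
  classical
  rw [card_affinePoints hn, card_roots_eq_sum hn (neg_ne_zero.mpr one_ne_zero)]
  set S := killed F n
  have h1 : (1 : MulChar F ℂ) ∈ S := one_mem_killed
  have hinv : ∀ χ ∈ S.erase 1, χ⁻¹ ∈ S.erase 1 := fun χ hχ => by
    rw [Finset.mem_erase] at hχ ⊢
    exact ⟨inv_ne_one.mpr hχ.1, mem_killed.mpr (by rw [inv_pow, mem_killed.mp hχ.2, inv_one])⟩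
  have hrow : ∀ χ ∈ S.erase 1, ∑ ψ ∈ S, jacobiSum χ ψ =
      -1 + (-χ (-1)) + ∑ ψ ∈ (S.erase 1).erase χ⁻¹, jacobiSum χ ψ := fun χ hχ => by
    have hχ1 := (Finset.mem_erase.mp hχ).1
    rw [← Finset.add_sum_erase S _ h1, jacobiSum_comm χ 1, jacobiSum_one_nontrivial hχ1,
      ← Finset.add_sum_erase _ _ (hinv χ hχ), jacobiSum_nontrivial_inv hχ1, add_assoc]
  rw [← Finset.add_sum_erase S (fun χ => ∑ ψ ∈ S, jacobiSum χ ψ) h1,
    ← Finset.add_sum_erase S (fun ψ => jacobiSum 1 ψ) h1, jacobiSum_one_one,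
    Finset.sum_congr rfl fun ψ hψ => jacobiSum_one_nontrivial (Finset.mem_erase.mp hψ).1,
    Finset.sum_congr rfl hrow, Finset.sum_add_distrib, Finset.sum_add_distrib,
    ← Finset.add_sum_erase S (fun χ => χ (-1)) h1, MulChar.one_apply isUnit_one.neg,
    Finset.sum_neg_distrib (f := fun χ : MulChar F ℂ => χ (-1)), ← Finset.card_erase_add_one h1]
  push_cast
  simp only [Finset.sum_const, nsmul_eq_mul, mul_neg, mul_one]
  ring

end FA.FermatCount

end
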